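import Mathlib
import Fermat.Prelude.Def_GaloisRep_Residual
import Fermat.Agent.Lib.Cheb.Spec

/-!
# Shared library CHEB-Q — quantitative Chebotarev (lower Dirichlet density), frozen statements

Client: row S48 (Deligne–Serre, Lemma 8.4): a set of primes of small upper Dirichlet density cannot
contain all primes whose Frobenius lies in a large conjugation-stable subset of a finite Galois
group.  Lib/Cheb Tier 1/2 (`Fermat.Agent.Lib.Cheb.Spec`) are qualitative; this file states the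
density versions, in the "finite set" form (no summability side conditions):

* `HasLowerDensity X d` : `∃ K, ∀ s ∈ (1,2], ∃ T ⊆ X finite, d·log(1/(s-1)) - K ≤ ∑_{p∈T} p^{-s}`;
* `HasUpperDensity X d` : `∃ K, ∀ s ∈ (1,2], ∀ T ⊆ X finite, ∑_{p∈T} p^{-s} ≤ d·log(1/(s-1)) + K`.

Definitions and `Prop`s only.  Owner: helper968.  Plan: `coord/S48-CHEBQ.md` on `origin/helper968`.
-/

set_option autoImplicit false

open NumberField

namespace Fermat.Agent.Lib.ChebQ.Spec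

open Fermat.Agent.Lib.Cheb

/-- `X` has lower Dirichlet density at least `d` (finite-set form, `O(1)` error). -/
def HasLowerDensity (X : Set ℕ) (d : ℝ) : Prop :=
  ∃ K : ℝ, ∀ s : ℝ, 1 < s → s ≤ 2 → ∃ T : Finset ℕ, (↑T ⊆ X) ∧
    d * Real.log (1 / (s - 1)) - K ≤ ∑ p ∈ T, (p : ℝ) ^ (-s)

/-- `X` has upper Dirichlet density at most `d` (finite-set form, `O(1)` error). -/
def HasUpperDensity (X : Set ℕ) (d : ℝ) : Prop :=
  ∃ K : ℝ, ∀ s : ℝ, 1 < s → s ≤ 2 → ∀ T : Finset ℕ, (↑T ⊆ X) →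
    ∑ p ∈ T, (p : ℝ) ^ (-s) ≤ d * Real.log (1 / (s - 1)) + K

/-- The rational primes `p` at which `σ` is an arithmetic Frobenius, at some prime of `𝓞 L` above
`p` with trivial inertia group.  (Invariant under conjugation of `σ`.) -/
def frobPrimes (L : Type) [Field L] [NumberField L] (σ : L ≃ₐ[ℚ] L) : Set ℕ :=
  {p | p.Prime ∧ ∃ P : Ideal (𝓞 L), P.IsPrime ∧ (p : 𝓞 L) ∈ P ∧ Spec.InertiaTrivial L P ∧
    IsArithFrobAt ℤ σ P}

/-- (ABS-Q) quantitative abstract Dirichlet lemma: same hypotheses as helper221's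
`AbstractDirichletStatement` (CYC skeleton of Lib/Cheb), quantitative conclusion. -/
def AbstractDirichletQStatement : Prop :=
  ∀ (m : ℕ) [NeZero m] (c : Nat.Primes → ℝ), (∀ p, 0 ≤ c p) →
    (∀ s : ℝ, 1 < s → s ≤ 2 → Summable (fun p : Nat.Primes => c p * (p : ℝ) ^ (-s))) →
    ∀ A : Subgroup (ZMod m)ˣ,
    (∃ B : Finset ℕ, ∀ p : Nat.Primes, (p : ℕ) ∉ B → c p ≠ 0 →
      ∃ u ∈ A, ((u : (ZMod m)ˣ) : ZMod m) = ((p : ℕ) : ZMod m)) →
    (∃ C : ℝ, ∀ s : ℝ, 1 < s → s ≤ 2 →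
      |(∑' p : Nat.Primes, c p * (p : ℝ) ^ (-s)) - Real.log (1 / (s - 1))| ≤ C) →
    (∃ C : ℝ, ∀ s : ℝ, 1 < s → s ≤ 2 →
      (Nat.card A : ℝ)⁻¹ * Real.log (1 / (s - 1)) - C ≤
        ∑' p : Nat.Primes, if ((p : ℕ) : ZMod m) = 1 then c p * (p : ℝ) ^ (-s) else 0) →
    (∀ χ : DirichletCharacter ℂ m, (∃ u ∈ A, χ ((u : (ZMod m)ˣ) : ZMod m) ≠ 1) →
      ∃ (Λ : ℝ → ℂ) (ℓ : ℂ) (C : ℝ), ContinuousOn Λ (Set.Ioi 1) ∧
        Filter.Tendsto (fun s => Complex.exp (Λ s)) (nhdsWithin 1 (Set.Ioi 1)) (nhds ℓ) ∧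
        ∀ s : ℝ, 1 < s → s ≤ 2 →
          ‖Λ s - ∑' p : Nat.Primes, χ ((p : ℕ) : ZMod m) * ((c p * (p : ℝ) ^ (-s) : ℝ) : ℂ)‖ ≤ C) →
    ∀ a ∈ A, ∃ K : ℝ, ∀ s : ℝ, 1 < s → s ≤ 2 →
      |(∑' p : Nat.Primes,
          if ((p : ℕ) : ZMod m) = ((a : (ZMod m)ˣ) : ZMod m) then c p * (p : ℝ) ^ (-s) else 0) -
        (Nat.card A : ℝ)⁻¹ * Real.log (1 / (s - 1))| ≤ K

/-- (CYC-Q) quantitative cyclotomic case, in the setting of `Cheb.Spec.CycStatement`: if `⟨g⟩`
acts faithfully on `ζ_m`, the primes with Frobenius `g` have lower density `≥ 1/|C_G(g)|`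
(`= |conjugacy class of g| / |G|`). -/
def CycDensityStatement : Prop :=
  ∀ (L : Type) [Field L] [NumberField L] [IsGalois ℚ L] (m : ℕ) (ζ : L), 0 < m →
    IsPrimitiveRoot ζ m → ∀ g : L ≃ₐ[ℚ] L, (∀ k : ℕ, (g ^ k) ζ = ζ → g ^ k = 1) →
    HasLowerDensity (frobPrimes L g)
      (Nat.card (Subgroup.centralizer ({g} : Set (L ≃ₐ[ℚ] L))) : ℝ)⁻¹

/-- (CHEB-Q, finite level) **Chebotarev density theorem, lower bound**: for every `δ > 0` the
primes with Frobenius (conjugate to) `σ` have lower Dirichlet density `≥ 1/|C_G(σ)| - δ`. -/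
def ChebDensityStatement : Prop :=
  ∀ (L : Type) [Field L] [NumberField L] [IsGalois ℚ L] (σ : L ≃ₐ[ℚ] L) (δ : ℝ), 0 < δ →
    HasLowerDensity (frobPrimes L σ)
      ((Nat.card (Subgroup.centralizer ({σ} : Set (L ≃ₐ[ℚ] L))) : ℝ)⁻¹ - δ)

/-- (CROSS-Q) quantitative field crossing. -/
def CrossDensityStatement : Prop :=
  Spec.FrobStatement → CycDensityStatement → ChebDensityStatement

/-- (CLIENT) Prelude-level client form (Deligne–Serre Lemma 8.4): `ρ` a homomorphism of `G_ℚ` to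
a finite group factoring through a finite level, `C` a conjugation-stable subset; if a set `X` of
upper density `≤ η` contains every prime `p` having a Frobenius element `φ` (in the Prelude's
sense) with `ρ φ ∈ C`, then `|C ∩ im ρ| ≤ η · |im ρ|`. -/
def ChebDensityClientStatement : Prop :=
  ∀ (G : Type) [Group G] [Finite G] (ρ : Spec.GQ →* G), GaloisFactorsThroughFiniteLevel ρ →
    ∀ C : Set G, (∀ g h : G, g ∈ C → h * g * h⁻¹ ∈ C) →
    ∀ (X : Set ℕ) (η : ℝ), HasUpperDensity X η →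
      (∀ (p : ℕ) (A : ValuationSubring Spec.Qb) (φ : Spec.GQ), p.Prime → A.LiesOverPrime p →
        A.IsFrobeniusAt φ p → ρ φ ∈ C → p ∈ X) →
      (Nat.card ↥(C ∩ Set.range ρ) : ℝ) ≤ η * (Nat.card ↥(Set.range ρ) : ℝ)

/-- (BRIDGE-Q) finite level ⇒ client form. -/
def ClientBridgeStatement : Prop :=
  ChebDensityStatement → ChebDensityClientStatement

end Fermat.Agent.Lib.ChebQ.Spec
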